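/-
S36, modular instance of the model (owner of this file: helper63).
LEVEL1: the table of the vertical valuations of level `N0 q` over the Gauss valuation of level `N0`,
along `al0` (and, by Atkin-Lehner, along `be0`):
`V1oo` has `e = f = 1`, `V10` has `e = 1`, `f = q`, and there is no other extension.
Consequences: COMPLETE1, DENSE1, and the completeness of `![V20, V11, V02]` over `V0`
(fields `complete`, `complete_b` of `BAD.Model.InstBase`).
-/
import Fermat.Agent.S36.Mod.HalfInst.Complete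

set_option autoImplicit false
set_option linter.unusedSectionVars false
set_option linter.style.haveILetI false

noncomputable section

namespace Fermat.Agent.S36.Inst.Good

open ModularCurve Fermat.Agent.S24 Fermat.Agent.S18 Fermat.Agent.S18.Vert
  Fermat.Agent.S18.Descent Fermat.Agent.S36.Norm Fermat.Agent.S36.Mod
  Fermat.Agent.S36.BP.BuildHalf Fermat.Agent.S36.BP

/-! ### abstract: degree `q + 1`, one extension with `f ≥ 1` and one with `f ≥ q` -/

theorem tab_succ {F₁ F : Type*} [Field F₁] [Field F] [Algebra F₁ F] [CharZero F₁] {q : ℕ}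
    (hq : q.Prime) (hdeg : Module.finrank F₁ F = q + 1)
    {U : ValuationSubring F₁} (hU : IsUnif U (q : F₁)) {Va Vb : ValuationSubring F}
    (ha : Va.comap (algebraMap F₁ F) = U) (hb : Vb.comap (algebraMap F₁ F) = U) (hne : Va ≠ Vb)
    {y₀ : F} (hy₀ : y₀ ∈ Vb) {c : F₁} (hc : Vb.valuation (algebraMap F₁ F c - y₀ ^ q) < 1)
    (hn : ∀ y' : F₁, ¬ Vb.valuation (algebraMap F₁ F y' - y₀) < 1) :
    haveI : IsDiscreteValuationRing U := hU.isDiscreteValuationRing
    Tab U ![Va, Vb] (fun _ => 1) ![1, q] := by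
  have hfin : FiniteDimensional F₁ F :=
    Module.finite_of_finrank_pos (by rw [hdeg]; exact Nat.succ_pos _)
  have hdU : IsDiscreteValuationRing U := hU.isDiscreteValuationRing
  have hqU : U.valuation (q : F₁) < 1 := approx_val_unif_lt_one hU
  have hlies : ∀ i, ((![Va, Vb] : Fin 2 → ValuationSubring F) i).comap (algebraMap F₁ F) = U := by
    intro i
    fin_cases i
    · exact ha
    · exact hb
  refine tab_of_table hlies ?_ ?_ ?_ ?_
  · intro i j hij
    fin_cases i <;> fin_cases j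
    · rfl
    · exact absurd hij hne
    · exact absurd hij.symm hne
    · rfl
  · intro i
    have := centre_isPrime (V := U) (W := (![Va, Vb] : Fin 2 → ValuationSubring F) i) (hlies i).ge
    exact Ideal.ramificationIdx_pos (centre U _) U
  · intro i
    fin_cases i
    · have := centre_isPrime (V := U) (W := Va) ha.ge
      exact Ideal.inertiaDeg_pos (centre U Va) U
    · exact le_inertiaDeg hb hq hqU hy₀ hc hn
  · rw [hdeg]
    simp

theorem complete_succ_hom {F₁ F : Type*} [Field F₁] [Field F] [CharZero F₁] (φ : F₁ →+* F) {q : ℕ}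
    (hq : q.Prime) (hdeg : dg φ = q + 1)
    {U : ValuationSubring F₁} (hU : IsUnif U (q : F₁)) {Va Vb : ValuationSubring F}
    (ha : Va.comap φ = U) (hb : Vb.comap φ = U) (hne : Va ≠ Vb)
    {y₀ : F} (hy₀ : y₀ ∈ Vb) {c : F₁} (hc : Vb.valuation (φ c - y₀ ^ q) < 1)
    (hn : ∀ y' : F₁, ¬ Vb.valuation (φ y' - y₀) < 1)
    (W : ValuationSubring F) (hW : W.comap φ = U) : W = Va ∨ W = Vb := by
  letI := φ.toAlgebra
  have hdeg' : Module.finrank F₁ F = q + 1 := hdeg
  have hfin : FiniteDimensional F₁ F :=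
    Module.finite_of_finrank_pos (by rw [hdeg']; exact Nat.succ_pos _)
  have hdU : IsDiscreteValuationRing U := hU.isDiscreteValuationRing
  obtain ⟨i, hi⟩ := (tab_succ hq hdeg' hU ha hb hne hy₀ hc hn).complete W hW
  fin_cases i
  · exact Or.inl hi
  · exact Or.inr hi

theorem dense_succ_hom {F₁ F : Type*} [Field F₁] [Field F] [CharZero F₁] (φ : F₁ →+* F) {q : ℕ}
    (hq : q.Prime) (hdeg : dg φ = q + 1)
    {U : ValuationSubring F₁} (hU : IsUnif U (q : F₁)) {Va Vb : ValuationSubring F}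
    (ha : Va.comap φ = U) (hb : Vb.comap φ = U) (hne : Va ≠ Vb)
    {y₀ : F} (hy₀ : y₀ ∈ Vb) {c : F₁} (hc : Vb.valuation (φ c - y₀ ^ q) < 1)
    (hn : ∀ y' : F₁, ¬ Vb.valuation (φ y' - y₀) < 1) :
    ∀ y ∈ Va, ∃ r : F₁, Va.valuation (φ r - y) < 1 := by
  intro y hy
  letI := φ.toAlgebra
  have hdeg' : Module.finrank F₁ F = q + 1 := hdeg
  have hfin : FiniteDimensional F₁ F :=
    Module.finite_of_finrank_pos (by rw [hdeg']; exact Nat.succ_pos _)
  have hdU : IsDiscreteValuationRing U := hU.isDiscreteValuationRing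
  exact (tab_succ hq hdeg' hU ha hb hne hy₀ hc hn).dense 0 rfl hy

/-! ### abstract: towers -/

theorem comap_comp_eq {R F₀ F₁ F₂ : Type*} [CommSemiring R] [Field F₀] [Field F₁] [Field F₂]
    [Algebra R F₀] [Algebra R F₁] [Algebra R F₂] (g : F₁ →ₐ[R] F₂) (f : F₀ →ₐ[R] F₁)
    {W : ValuationSubring F₂} {U : ValuationSubring F₁} {V : ValuationSubring F₀}
    (h1 : W.comap g.toRingHom = U) (h2 : U.comap f.toRingHom = V) :
    W.comap ((g.comp f : F₀ →ₐ[R] F₂) : F₀ →+* F₂) = V := by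
  subst h1
  subst h2
  rfl

theorem complete_tower {R F₀ F₁ F₂ : Type*} [CommSemiring R] [Field F₀] [Field F₁] [Field F₂]
    [Algebra R F₀] [Algebra R F₁] [Algebra R F₂] (g : F₁ →ₐ[R] F₂) (f : F₀ →ₐ[R] F₁)
    {V : ValuationSubring F₀} {U₁ U₂ : ValuationSubring F₁} {Wa Wm Wb : ValuationSubring F₂}
    (h0 : ∀ U : ValuationSubring F₁, U.comap f.toRingHom = V → U = U₁ ∨ U = U₂)
    (h1 : ∀ W : ValuationSubring F₂, W.comap g.toRingHom = U₁ → W = Wa ∨ W = Wm)
    (h2 : ∀ W : ValuationSubring F₂, W.comap g.toRingHom = U₂ → W = Wb)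
    (W : ValuationSubring F₂) (hW : W.comap ((g.comp f : F₀ →ₐ[R] F₂) : F₀ →+* F₂) = V) :
    W = Wa ∨ W = Wm ∨ W = Wb := by
  have h : (W.comap g.toRingHom).comap f.toRingHom = V := hW
  rcases h0 _ h with h' | h'
  · rcases h1 W h' with h'' | h''
    · exact Or.inl h''
    · exact Or.inr (Or.inl h'')
  · exact Or.inr (Or.inr (h2 W h'))

variable {K K' : Type*} [Field K] [Field K'] [Algebra ℚ K] [Algebra ℚ K'] [Algebra K Kbar]
  [Algebra K' Kbar] (S : Setup K K')

/-! ### relations at level `N0 q` -/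

theorem w1_w1 (f : S.F1) : S.w1 (S.w1 f) = f := wAL_wAL _ _ _ _ _ _ f

theorem w1_al0 (f : S.F0) : S.w1 (S.al0 f) = S.be0 f := by
  have key : S.w1.comp S.al0 = S.be0 := by
    apply algHom_ext_JK
    intro d _ hd
    have h1 : d * 1 ∣ S.N0 * S.q := by rw [mul_one]; exact hd.mul_right _
    have h2 : d * S.q ∣ S.N0 * S.q := Nat.mul_dvd_mul_right hd _
    have h3 : S.q * d ∣ S.N0 * S.q := by rw [mul_comm]; exact h2
    rw [AlgHom.comp_apply, Setup.al0, Setup.be0, Setup.w1, al_JK, be_JK S.N0 S.q d hd h3,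
      JK_congr K (S.N0 * S.q) (mul_one d).symm (hd.mul_right _) h1,
      wAL_JK K (S.N0 * S.q) S.N0 S.q rfl S.coprime d 1 S.q hd (one_mul _) h1 h2]
    exact JK_congr K _ (mul_comm _ _) _ _
  exact congrArg (fun φ : S.F0 →ₐ[K] S.F1 => φ f) key

theorem w1_be0 (f : S.F0) : S.w1 (S.be0 f) = S.al0 f := by
  rw [← w1_al0, w1_w1]

theorem e1oo_al0 (f : S.F0) : S.e1oo.toHom (S.al0 f) = S.e0.toHom f := by
  rw [Setup.e1oo, Setup.e0, stdEmb_toHom_apply, stdEmb_toHom_apply, Setup.al0, coe_heckeAlphaBar]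

theorem e1oo_be0 (f : S.F0) : S.e1oo.toHom (S.be0 f) = qExpand K S.q (S.e0.toHom f) := by
  rw [Setup.e1oo, Setup.e0, stdEmb_toHom_apply, stdEmb_toHom_apply, Setup.be0, coe_heckeBetaBar]

theorem e10_al0 (f : S.F0) : S.e10.toHom (S.al0 f) = qExpand K S.q (S.e0.toHom f) := by
  show S.e1oo.toHom (S.w1 (S.al0 f)) = _
  rw [w1_al0, e1oo_be0]

theorem e10_be0 (f : S.F0) : S.e10.toHom (S.be0 f) = S.e0.toHom f := by
  show S.e1oo.toHom (S.w1 (S.be0 f)) = _
  rw [w1_be0, e1oo_al0]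

/-! ### restrictions -/

theorem V1oo_comap_al0 : S.V1oo.comap S.al0.toRingHom = S.V0 :=
  IntEmb.comap_algHom_eq S.e1oo S.e0 S.al0 (e1oo_al0 S)

theorem V1oo_comap_be0 : S.V1oo.comap S.be0.toRingHom = S.V0 :=
  IntEmb.comap_algHom_eq_dil S.e1oo S.e0 S.be0 S.q (e1oo_be0 S)

theorem V10_comap_al0 : S.V10.comap S.al0.toRingHom = S.V0 :=
  IntEmb.comap_algHom_eq_dil S.e10 S.e0 S.al0 S.q (e10_al0 S)

theorem V10_comap_be0 : S.V10.comap S.be0.toRingHom = S.V0 :=
  IntEmb.comap_algHom_eq S.e10 S.e0 S.be0 (e10_be0 S)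

theorem isUnif_V0 : IsUnif S.V0 ((S.q : ℕ) : S.F0) := S.Unif_isUnif_val S.e0

theorem charZero_F0 : CharZero S.F0 :=
  haveI : CharZero K := algebraRat.charZero K
  charZero_of_injective_algebraMap (algebraMap K S.F0).injective

theorem dg_al0 : dg S.al0.toRingHom = S.q + 1 := by
  rw [Setup.al0, dg_alphaK, heckeAlphaBar_eq_inc]
  exact dg_inc_of_not_dvd S.hq S.hqN

theorem dg_be0 : dg S.be0.toRingHom = S.q + 1 := by
  have h : S.be0.toRingHom = S.w1.toRingHom.comp S.al0.toRingHom :=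
    RingHom.ext fun f => (w1_al0 S f).symm
  rw [h, dg_comp, dg_al0, dg_of_surjective S.w1.toRingHom (fun y => ⟨S.w1 y, w1_w1 S y⟩), mul_one]

/-! ### the inseparable elements -/

/-- `j` at level `N0` -/
def J0one : S.F0 := JK K S.N0 1 (one_dvd _)

theorem e0_J0one : S.e0.toHom (J0one S) = Js K 1 := rfl

theorem e1oo_J1one : S.e1oo.toHom S.J1one = Js K 1 := rfl

theorem e10_J1q : S.e10.toHom S.J1q = Js K 1 := by
  have h1 : 1 * S.q ∣ S.N0 * S.q := Nat.mul_dvd_mul (one_dvd _) dvd_rfl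
  have h2 : 1 * 1 ∣ S.N0 * S.q := by rw [one_mul]; exact one_dvd _
  have e2 := wAL_JK K (S.N0 * S.q) S.N0 S.q rfl S.coprime 1 S.q 1 (one_dvd _) (Nat.mul_one _) h1 h2
  show ((S.w1 S.J1q : S.F1) : LaurentSeries K) = Js K 1
  rw [Setup.J1q, Setup.w1, e2, coe_JK]

theorem J1q_mem_V10 : S.J1q ∈ S.V10 := by
  obtain ⟨P, hP, -⟩ := exists_inc_Js_one (L := K) S.B
  exact S.e10.mem_val_of_eq_inc (P := P) (by rw [hP, e10_J1q])

theorem J1one_mem_V1oo : S.J1one ∈ S.V1oo := by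
  obtain ⟨P, hP, -⟩ := exists_inc_Js_one (L := K) S.B
  exact S.e1oo.mem_val_of_eq_inc (P := P) (by rw [hP, e1oo_J1one])

theorem al0_cong : S.V10.valuation (S.al0.toRingHom (J0one S) - S.J1q ^ S.q) < 1 :=
  S.insep_cong S.e10 (by
    show S.e10.toHom (S.al0 (J0one S)) = _
    rw [e10_al0, e0_J0one, qExpand_Js]) (e10_J1q S)

theorem al0_not_cong (y' : S.F0) : ¬ S.V10.valuation (S.al0.toRingHom y' - S.J1q) < 1 :=
  S.insep_not_cong S.e10 (e10_J1q S)
    (fun h => IntEmb.exists_res_algHom_eq_dil S.e10 S.e0 S.al0 S.q (e10_al0 S) y' h)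

theorem be0_cong : S.V1oo.valuation (S.be0.toRingHom (J0one S) - S.J1one ^ S.q) < 1 :=
  S.insep_cong S.e1oo (by
    show S.e1oo.toHom (S.be0 (J0one S)) = _
    rw [e1oo_be0, e0_J0one, qExpand_Js]) (e1oo_J1one S)

theorem be0_not_cong (y' : S.F0) : ¬ S.V1oo.valuation (S.be0.toRingHom y' - S.J1one) < 1 :=
  S.insep_not_cong S.e1oo (e1oo_J1one S)
    (fun h => IntEmb.exists_res_algHom_eq_dil S.e1oo S.e0 S.be0 S.q (e1oo_be0 S) y' h)

/-! ### COMPLETE1 and DENSE1 -/

/-- the extensions of `V0` along `al0` -/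
theorem complete_al0 (W : ValuationSubring S.F1) (hW : W.comap S.al0.toRingHom = S.V0) :
    W = S.V1oo ∨ W = S.V10 :=
  haveI := charZero_F0 S
  complete_succ_hom S.al0.toRingHom S.hq (dg_al0 S) (isUnif_V0 S) (V1oo_comap_al0 S)
    (V10_comap_al0 S) S.V1oo_ne_V10 (J1q_mem_V10 S) (al0_cong S) (al0_not_cong S) W hW

/-- the extensions of `V0` along `be0` -/
theorem complete_be0 (W : ValuationSubring S.F1) (hW : W.comap S.be0.toRingHom = S.V0) :
    W = S.V10 ∨ W = S.V1oo :=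
  haveI := charZero_F0 S
  complete_succ_hom S.be0.toRingHom S.hq (dg_be0 S) (isUnif_V0 S) (V10_comap_be0 S)
    (V1oo_comap_be0 S) S.V1oo_ne_V10.symm (J1one_mem_V1oo S) (be0_cong S) (be0_not_cong S) W hW

/-- residue degree one for `(V1oo, al0)` -/
theorem dense_al0 : ∀ y ∈ S.V1oo, ∃ r : S.F0, S.V1oo.valuation (S.al0 r - y) < 1 :=
  haveI := charZero_F0 S
  dense_succ_hom S.al0.toRingHom S.hq (dg_al0 S) (isUnif_V0 S) (V1oo_comap_al0 S)
    (V10_comap_al0 S) S.V1oo_ne_V10 (J1q_mem_V10 S) (al0_cong S) (al0_not_cong S)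

/-- residue degree one for `(V10, be0)` -/
theorem dense_be0 : ∀ y ∈ S.V10, ∃ r : S.F0, S.V10.valuation (S.be0 r - y) < 1 :=
  haveI := charZero_F0 S
  dense_succ_hom S.be0.toRingHom S.hq (dg_be0 S) (isUnif_V0 S) (V10_comap_be0 S)
    (V1oo_comap_be0 S) S.V1oo_ne_V10.symm (J1one_mem_V1oo S) (be0_cong S) (be0_not_cong S)

/-! ### level `N0 q q` over level `N0` -/

/-- restrictions along `f(z) ↦ f(z)` -/
theorem comap_aa (c : Fin 3) :
    ((![S.V20, S.V11, S.V02] : Fin 3 → ValuationSubring S.F2) c).comap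
      ((S.al1.comp S.al0 : S.F0 →ₐ[K] S.F2) : S.F0 →+* S.F2) = S.V0 := by
  fin_cases c
  · exact comap_comp_eq S.al1 S.al0 S.V20_comap_al1 (V1oo_comap_al0 S)
  · exact comap_comp_eq S.al1 S.al0 S.V11_comap_al1 (V1oo_comap_al0 S)
  · exact comap_comp_eq S.al1 S.al0 S.V02_comap_al1 (V10_comap_al0 S)

/-- restrictions along `f(z) ↦ f(q² z)` -/
theorem comap_bb (c : Fin 3) :
    ((![S.V20, S.V11, S.V02] : Fin 3 → ValuationSubring S.F2) c).comap
      ((S.be1.comp S.be0 : S.F0 →ₐ[K] S.F2) : S.F0 →+* S.F2) = S.V0 := by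
  fin_cases c
  · exact comap_comp_eq S.be1 S.be0 S.V20_comap_be1 (V1oo_comap_be0 S)
  · exact comap_comp_eq S.be1 S.be0 S.V11_comap_be1 (V10_comap_be0 S)
  · exact comap_comp_eq S.be1 S.be0 S.V02_comap_be1 (V10_comap_be0 S)

/-- **the three vertical valuation rings are all the extensions of `V0` along `f(z) ↦ f(z)`** -/
theorem complete_aa (W : ValuationSubring S.F2)
    (hW : W.comap ((S.al1.comp S.al0 : S.F0 →ₐ[K] S.F2) : S.F0 →+* S.F2) = S.V0) :
    ∃ c, W = (![S.V20, S.V11, S.V02] : Fin 3 → ValuationSubring S.F2) c := by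
  rcases complete_tower S.al1 S.al0 (complete_al0 S) S.complete_al1_oo S.complete_al1_0 W hW
    with h | h | h
  · exact ⟨0, h⟩
  · exact ⟨1, h⟩
  · exact ⟨2, h⟩

/-- **the three vertical valuation rings are all the extensions of `V0` along `f(z) ↦ f(q² z)`** -/
theorem complete_bb (W : ValuationSubring S.F2)
    (hW : W.comap ((S.be1.comp S.be0 : S.F0 →ₐ[K] S.F2) : S.F0 →+* S.F2) = S.V0) :
    ∃ c, W = (![S.V20, S.V11, S.V02] : Fin 3 → ValuationSubring S.F2) c := by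
  rcases complete_tower S.be1 S.be0 (complete_be0 S) S.complete_be1_0 S.complete_be1_oo W hW
    with h | h | h
  · exact ⟨2, h⟩
  · exact ⟨1, h⟩
  · exact ⟨0, h⟩

end Fermat.Agent.S36.Inst.Good

end
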